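import Fermat.Agent.FormCount.Roots
import Fermat.Agent.GaussCycles.Main
import Mathlib.LinearAlgebra.Matrix.SpecialLinearGroup

/-!
# Representations by a system of classes

A proper representation of `n` by `f` is the first column of a matrix carrying `f` to a form
`(n, ε + 2 j, *)` with `j` a root modulo `n`, and for each `j` these matrices are as many as the
automorphs.
-/

set_option autoImplicit false

noncomputable section

namespace FA.FormCount

open FA.GaussComposition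

/-- Matrices of determinant one. -/
abbrev Mat : Type := Matrix.SpecialLinearGroup (Fin 2) ℤ

/-- The number of automorphs of a positive form of discriminant `D`. -/
def autCount (D : ℤ) : ℕ := if D = -3 then 6 else if D = -4 then 4 else 2

variable {D : ℤ}

/-- `M` carries `f` to `g`. -/
def Carries (f g : Form D) (M : Mat) : Prop :=
  ∀ x y : ℤ, f.eval (M 0 0 * x + M 0 1 * y) (M 1 0 * x + M 1 1 * y) = g.eval x y

theorem det_eq (M : Mat) : M 0 0 * M 1 1 - M 0 1 * M 1 0 = 1 :=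
  (Matrix.det_fin_two M.1).symm.trans M.2

/-- The matrix with given entries. -/
def mat (p q r s : ℤ) (h : p * s - q * r = 1) : Mat :=
  ⟨!![p, q; r, s], by rw [Matrix.det_fin_two_of]; exact h⟩

theorem carries_iff {f g : Form D} {M : Mat} :
    Carries f g M ↔ GaussCycles.Moved f g.a g.b g.c (M 0 0) (M 0 1) (M 1 0) (M 1 1) := by
  constructor
  · intro h
    have h1 := h 1 0
    have h2 := h 0 1
    have h3 := h 1 1
    simp only [Form.eval] at h1 h2 h3
    refine ⟨?_, ?_, ?_⟩ <;> (try simp only [Form.eval])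
    · linear_combination -h1
    · linear_combination h1 + h2 - h3
    · linear_combination -h2
  · rintro ⟨ha, hb, hc⟩ x y
    exact (Form.Equivalent.eval_eq ha hb hc x y).symm

theorem exists_carries {f g : Form D} (h : f.Equivalent g) : ∃ M, Carries f g M := by
  obtain ⟨p, q, r, s, hd, ha, hb, hc⟩ := h
  exact ⟨mat p q r s hd, carries_iff.2 ⟨ha, hb, hc⟩⟩

theorem equivalent_of_carries {f g : Form D} {M : Mat} (h : Carries f g M) : f.Equivalent g :=
  ⟨_, _, _, _, det_eq M, carries_iff.1 h⟩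

theorem carries_mul_iff {f g : Form D} {M : Mat} (hM : Carries f g M) {k : Form D} (N : Mat) :
    Carries f k (M * N) ↔ Carries g k N := by
  refine forall₂_congr fun x y => ?_
  rw [← hM]
  simp only [Matrix.SpecialLinearGroup.coe_mul, Matrix.mul_apply, Fin.sum_univ_two]
  ring_nf

theorem card_sol (hneg : D < 0) (hD4 : D % 4 = 0 ∨ D % 4 = 1) :
    Nat.card {v : ℤ × ℤ // v.1 ^ 2 - D * v.2 ^ 2 = 4} = autCount D := by
  have hS : ∀ S : Finset (ℤ × ℤ), (∀ v : ℤ × ℤ, v.1 ^ 2 - D * v.2 ^ 2 = 4 ↔ v ∈ S) →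
      Nat.card {v : ℤ × ℤ // v.1 ^ 2 - D * v.2 ^ 2 = 4} = S.card := fun S h => by
    rw [← Nat.card_eq_finsetCard]
    exact Nat.card_congr (Equiv.subtypeEquivRight h)
  have hb : ∀ t u : ℤ, t ^ 2 - D * u ^ 2 = 4 → t ∈ Finset.Icc (-2) 2 ∧ u ∈ Finset.Icc (-1) 1 ∧
      (u = 0 ∨ -4 ≤ D) := fun t u h => by
    have h1 : u ^ 2 * 3 ≤ -(D * u ^ 2) := by nlinarith [sq_nonneg u, show D ≤ -3 by omega]
    refine ⟨Finset.mem_Icc.2 ⟨by nlinarith, by nlinarith⟩,
      Finset.mem_Icc.2 ⟨by nlinarith [sq_nonneg t], by nlinarith [sq_nonneg t]⟩, ?_⟩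
    by_contra hu
    push Not at hu
    have : 1 ≤ u ^ 2 := by
      have := sq_pos_iff.2 hu.1
      omega
    nlinarith [sq_nonneg t]
  unfold autCount
  split_ifs with h3 h4
  · subst h3
    refine hS {(2, 0), (-2, 0), (1, 1), (1, -1), (-1, 1), (-1, -1)} fun ⟨t, u⟩ => ⟨fun h => ?_,
      fun h => ?_⟩
    · obtain ⟨h1, h2, -⟩ := hb t u h
      simp only at h
      obtain ⟨_, _⟩ := Finset.mem_Icc.1 h1
      obtain ⟨_, _⟩ := Finset.mem_Icc.1 h2
      interval_cases t <;> interval_cases u <;> simp_all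
    · simp only [Finset.mem_insert, Finset.mem_singleton, Prod.mk.injEq] at h
      rcases h with h | h | h | h | h | h <;> obtain ⟨rfl, rfl⟩ := h <;> norm_num
  · subst h4
    refine hS {(2, 0), (-2, 0), (0, 1), (0, -1)} fun ⟨t, u⟩ => ⟨fun h => ?_, fun h => ?_⟩
    · obtain ⟨h1, h2, -⟩ := hb t u h
      simp only at h
      obtain ⟨_, _⟩ := Finset.mem_Icc.1 h1
      obtain ⟨_, _⟩ := Finset.mem_Icc.1 h2
      interval_cases t <;> interval_cases u <;> simp_all
    · simp only [Finset.mem_insert, Finset.mem_singleton, Prod.mk.injEq] at h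
      rcases h with h | h | h | h <;> obtain ⟨rfl, rfl⟩ := h <;> norm_num
  · refine hS {(2, 0), (-2, 0)} fun ⟨t, u⟩ => ⟨fun h => ?_, fun h => ?_⟩
    · obtain ⟨h1, -, h2⟩ := hb t u h
      obtain rfl : u = 0 := h2.resolve_right (by omega)
      simp only at h
      obtain ⟨_, _⟩ := Finset.mem_Icc.1 h1
      interval_cases t <;> simp_all
    · simp only [Finset.mem_insert, Finset.mem_singleton, Prod.mk.injEq] at h
      rcases h with h | h <;> obtain ⟨rfl, rfl⟩ := h <;> norm_num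

variable (hneg : D < 0)
include hneg

omit hneg in
theorem autCount_pos : 0 < autCount D := by
  unfold autCount
  split_ifs <;> norm_num

theorem card_carries_self (g : Form D) :
    Nat.card {M : Mat // Carries g g M} = autCount D := by
  have hns := GenusPrimes.not_isSquare_of_neg hneg
  rw [← card_sol hneg (GaussDuplication.disc_mod_four g)]
  symm
  have hmk : ∀ v : {v : ℤ × ℤ // v.1 ^ 2 - D * v.2 ^ 2 = 4},
      ∃ p : ℤ, 2 * p = v.1.1 - g.b * v.1.2 := fun ⟨⟨t, u⟩, h⟩ => by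
    have h4 : (2 : ℤ) ∣ (t - g.b * u) * (t + g.b * u) :=
      ⟨2 - 2 * g.a * g.c * u ^ 2, by linear_combination h - u ^ 2 * g.disc⟩
    rcases Int.prime_two.dvd_or_dvd h4 with ⟨c, hc⟩ | ⟨c, hc⟩
    · exact ⟨c, hc.symm⟩
    · exact ⟨c - g.b * u, by simp only; linarith⟩
  choose P hP using hmk
  have hauto : ∀ v : {v : ℤ × ℤ // v.1 ^ 2 - D * v.2 ^ 2 = 4},
      P v * (P v + g.b * v.1.2) - -g.c * v.1.2 * (g.a * v.1.2) = 1 ∧
        GaussCycles.Moved g g.a g.b g.c (P v) (-g.c * v.1.2) (g.a * v.1.2)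
          (P v + g.b * v.1.2) := fun v =>
    (GaussCycles.automorph_iff hns g _ _ _ _).2
      ⟨v.1.1, v.1.2, v.2, hP v, rfl, rfl, by linarith [hP v]⟩
  refine Nat.card_eq_of_bijective (fun v => (⟨mat _ _ _ _ (hauto v).1,
    carries_iff.2 (hauto v).2⟩ : {M : Mat // Carries g g M})) ⟨fun v w h => ?_, fun M => ?_⟩
  · have h' : mat _ _ _ _ (hauto v).1 = mat _ _ _ _ (hauto w).1 := congrArg Subtype.val h
    have h00 : P v = P w := congrArg (fun M : Mat => M 0 0) h'
    have h10 : g.a * v.1.2 = g.a * w.1.2 := congrArg (fun M : Mat => M 1 0) h'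
    have hu : v.1.2 = w.1.2 := mul_left_cancel₀ (g.a_ne_zero hns) h10
    refine Subtype.ext (Prod.ext ?_ hu)
    have h1 := hP v
    have h2 := hP w
    rw [hu, h00] at h1
    linarith
  · obtain ⟨t, u, htu, h1, h2, h3, h4⟩ :=
      (GaussCycles.automorph_iff hns g _ _ _ _).1 ⟨det_eq M.1, carries_iff.1 M.2⟩
    have hp : P ⟨(t, u), htu⟩ = M.1 0 0 := by have := hP ⟨(t, u), htu⟩; simp only at this; omega
    have hs : P ⟨(t, u), htu⟩ + g.b * u = M.1 1 1 := by linarith
    refine ⟨⟨(t, u), htu⟩, Subtype.ext (Subtype.ext (Matrix.ext fun i j => ?_))⟩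
    fin_cases i <;> fin_cases j <;> simp [mat, hp, h2, h3]
    linarith

theorem finite_carries (f g : Form D) : Finite {M : Mat // Carries f g M} := by
  by_cases h : ∃ M, Carries f g M
  · obtain ⟨M₀, h₀⟩ := h
    have : Finite {N : Mat // Carries g g N} :=
      Nat.finite_of_card_ne_zero (by rw [card_carries_self hneg]; exact autCount_pos.ne')
    exact Finite.of_equiv _
      ((Equiv.mulLeft M₀).subtypeEquiv (p := Carries g g) (q := Carries f g) fun N =>
        (carries_mul_iff h₀ N).symm)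
  · have : IsEmpty {M : Mat // Carries f g M} := ⟨fun M => h ⟨M.1, M.2⟩⟩
    infer_instance

open Classical in
theorem card_carries (f g : Form D) :
    Nat.card {M : Mat // Carries f g M} = if f.Equivalent g then autCount D else 0 := by
  split_ifs with h
  · obtain ⟨M₀, h₀⟩ := exists_carries h
    rw [← card_carries_self hneg g]
    exact (Nat.card_congr ((Equiv.mulLeft M₀).subtypeEquiv (p := Carries g g) (q := Carries f g)
      fun N => (carries_mul_iff h₀ N).symm)).symm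
  · exact Nat.card_eq_zero.2 (Or.inl ⟨fun M => h (equivalent_of_carries M.2)⟩)

omit hneg in
/-- The proper representations of `n`. -/
def Proper (f : Form D) (n : ℕ) : Type :=
  {v : ℤ × ℤ // IsCoprime v.1 v.2 ∧ f.eval v.1 v.2 = n}

omit hneg in
/-- The form of a root. -/
theorem exists_rootForm (hD4 : D % 4 = 0 ∨ D % 4 = 1) {n : ℕ} (hn : n ≠ 0)
    (hc : IsCoprime (n : ℤ) D) (j : Root D n) :
    ∃ g : Form D, g.a = n ∧ g.b = D % 4 + 2 * (j.1.val : ℤ) := by
  have : NeZero n := ⟨hn⟩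
  have hd := Int.mul_ediv_add_emod D 4
  have he : (D % 4) ^ 2 = D % 4 := by rcases hD4 with e | e <;> rw [e] <;> norm_num
  obtain ⟨c, hcc⟩ : (n : ℤ) ∣ (j.1.val : ℤ) ^ 2 + D % 4 * (j.1.val : ℤ) - D / 4 := by
    rw [← ZMod.intCast_zmod_eq_zero_iff_dvd]
    push_cast
    rw [ZMod.natCast_zmod_val]
    linear_combination j.2
  refine ⟨⟨n, D % 4 + 2 * (j.1.val : ℤ), c, by linear_combination 4 * hcc + hd + he,
    fun l hl h1 h2 _ => ?_, fun _ => by exact_mod_cast Nat.pos_of_ne_zero hn⟩, rfl, rfl⟩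
  refine (Nat.prime_iff_prime_int.1 hl).not_isUnit (hc.isUnit_of_dvd' h1 ?_)
  rw [show D = (D % 4 + 2 * (j.1.val : ℤ)) * (D % 4 + 2 * (j.1.val : ℤ)) - n * (4 * c) by
    linear_combination -hd - he - 4 * hcc]
  exact (h2.mul_right _).sub (h1.mul_right _)

instance {n : ℕ} [NeZero n] : Finite (Root D n) := Subtype.finite

omit hneg in
theorem proper_bijective (hD4 : D % 4 = 0 ∨ D % 4 = 1) {n : ℕ} (hn : n ≠ 0) (f : Form D)
    {F : Root D n → Form D} (hF : ∀ j, (F j).a = n ∧ (F j).b = D % 4 + 2 * (j.1.val : ℤ)) :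
    Function.Bijective (fun x : Σ j, {M : Mat // Carries f (F j) M} =>
      (⟨(x.2.1 0 0, x.2.1 1 0),
        ⟨x.2.1 1 1, -x.2.1 0 1, by linear_combination det_eq x.2.1⟩,
        by rw [← (carries_iff.1 x.2.2).1, (hF x.1).1]⟩ : Proper f n)) := by
  have : NeZero n := ⟨hn⟩
  have hn' : (n : ℤ) ≠ 0 := Int.natCast_ne_zero.2 hn
  constructor
  · rintro ⟨i, M, hM⟩ ⟨j, N, hN⟩ h
    have h' := congrArg Subtype.val h
    simp only [Prod.mk.injEq] at h'
    obtain ⟨ep, er⟩ := h'
    obtain ⟨hMa, hMb, -⟩ := carries_iff.1 hM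
    obtain ⟨hNa, hNb, -⟩ := carries_iff.1 hN
    have dM := det_eq M
    have dN := det_eq N
    simp only [Form.eval, (hF i).1, (hF j).1, (hF i).2, (hF j).2] at hMa hMb hNa hNb
    rw [ep, er] at hMa hMb dM
    obtain ⟨k, hk⟩ : ∃ k, k = N 1 1 * M 0 1 - N 0 1 * M 1 1 := ⟨_, rfl⟩
    have hq : M 0 1 = N 0 1 + k * N 0 0 := by
      rw [hk]; linear_combination N 0 1 * dM - M 0 1 * dN
    have hs : M 1 1 = N 1 1 + k * N 1 0 := by
      rw [hk]; linear_combination N 1 1 * dM - M 1 1 * dN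
    rw [hq, hs] at hMb
    have hij : (i.1.val : ℤ) - j.1.val = n * k :=
      mul_left_cancel₀ two_ne_zero (by linear_combination hMb - hNb - 2 * k * hNa)
    have hk0 : k = 0 := by
      by_contra hk0
      have h1 := ZMod.val_lt i.1
      have h2 := ZMod.val_lt j.1
      rcases lt_or_gt_of_ne hk0 with h | h <;> nlinarith
    obtain rfl : i = j := Subtype.ext (ZMod.val_injective n (by rw [hk0] at hij; omega))
    rw [hk0, zero_mul, add_zero] at hq hs
    obtain rfl : M = N := by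
      refine Subtype.ext (Matrix.ext fun a b => ?_)
      fin_cases a <;> fin_cases b
      exacts [ep, hq, er, hs]
    rfl
  · rintro ⟨⟨x, y⟩, ⟨s, q', hsq⟩, hv⟩
    obtain ⟨q, rfl⟩ : ∃ q, q' = -q := ⟨-q', (neg_neg q').symm⟩
    simp only [Form.eval] at hsq hv
    obtain ⟨B, hB⟩ : ∃ B, B = 2 * f.a * x * q + f.b * (x * s + q * y) + 2 * f.c * y * s :=
      ⟨_, rfl⟩
    have hdisc : B ^ 2 - 4 * n * f.eval q s = D := by
      rw [hB, ← hv, Form.eval]
      linear_combination f.disc + (f.b ^ 2 - 4 * f.a * f.c) * (x * s - q * y + 1) * hsq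
    have hd := Int.mul_ediv_add_emod D 4
    obtain ⟨J, hJ⟩ : ∃ J, B = D % 4 + 2 * J := by
      have h : (2 : ℤ) ∣ B * B - D % 4 := ⟨2 * (n * f.eval q s + D / 4), by
        linear_combination hdisc - hd⟩
      have hpar : Even (B - D % 4) := by
        rw [Int.even_sub]
        have h' : Even (B * B - D % 4) := even_iff_two_dvd.2 h
        rw [Int.even_sub, Int.even_mul, or_self] at h'
        exact h'
      obtain ⟨J, hJ⟩ := hpar.two_dvd
      exact ⟨J, by linarith⟩
    have he : (D % 4) ^ 2 = D % 4 := by rcases hD4 with e | e <;> rw [e] <;> norm_num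
    have hroot : (J : ZMod n) ^ 2 + ((D % 4 : ℤ) : ZMod n) * J = ((D / 4 : ℤ) : ZMod n) := by
      have h0 : J ^ 2 + D % 4 * J - D / 4 = n * f.eval q s := mul_left_cancel₀ four_ne_zero (by
        rw [hJ] at hdisc
        linear_combination hdisc - hd - he)
      have h1 := congrArg (Int.cast : ℤ → ZMod n) h0
      push_cast at h1
      rw [ZMod.natCast_self, zero_mul, sub_eq_zero] at h1
      exact h1
    obtain ⟨j, hj⟩ : ∃ j : Root D n, j.1 = (J : ZMod n) := ⟨⟨_, hroot⟩, rfl⟩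
    obtain ⟨k, hk⟩ : (n : ℤ) ∣ (j.1.val : ℤ) - J := by
      rw [← ZMod.intCast_zmod_eq_zero_iff_dvd]
      push_cast
      rw [ZMod.natCast_zmod_val, hj, sub_self]
    obtain ⟨hFa, hFb⟩ := hF j
    have hdet : x * (s + k * y) - (q + k * x) * y = 1 := by linear_combination hsq
    have eb : (F j).b = 2 * f.a * x * (q + k * x) + f.b * (x * (s + k * y) + (q + k * x) * y) +
        2 * f.c * y * (s + k * y) := by
      rw [hFb, show (j.1.val : ℤ) = J + n * k by linarith]
      linear_combination hB - hJ - 2 * k * hv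
    refine ⟨⟨j, mat x (q + k * x) y (s + k * y) hdet, carries_iff.2 ⟨?_, eb, ?_⟩⟩, rfl⟩
    · show (F j).a = f.eval x y
      rw [hFa, Form.eval, hv]
    · refine mul_left_cancel₀ (mul_ne_zero four_ne_zero hn') ?_
      show 4 * (n : ℤ) * (F j).c = 4 * n * f.eval (q + k * x) (s + k * y)
      have h2 := (F j).disc
      rw [hFa, eb] at h2
      rw [← hv] at h2 ⊢
      simp only [Form.eval] at h2 ⊢
      linear_combination -h2 + f.disc +
        (f.b ^ 2 - 4 * f.a * f.c) * (x * (s + k * y) - (q + k * x) * y + 1) * hdet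

theorem finite_proper {n : ℕ} (hn : n ≠ 0) (hc : IsCoprime (n : ℤ) D) (f : Form D) :
    Finite (Proper f n) := by
  have : NeZero n := ⟨hn⟩
  have hD4 := GaussDuplication.disc_mod_four f
  choose F hF using exists_rootForm hD4 hn hc
  have := fun j => finite_carries hneg f (F j)
  exact Finite.of_surjective _ (proper_bijective hD4 hn f hF).2

/-- **Proper representations by a system of classes.** -/
theorem sum_card_proper (hD4 : D % 4 = 0 ∨ D % 4 = 1) {R : Finset (Form D)}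
    (hR : ∀ f : Form D, ∃! g, g ∈ R ∧ g.Equivalent f) {n : ℕ} (hn : n ≠ 0)
    (hc : IsCoprime (n : ℤ) D) :
    ∑ f ∈ R, Nat.card (Proper f n) = autCount D * rootCount D n := by
  classical
  have : NeZero n := ⟨hn⟩
  let _ : Fintype (Root D n) := Fintype.ofFinite _
  choose F hF using exists_rootForm hD4 hn hc
  rw [Finset.sum_congr rfl fun f _ => show Nat.card (Proper f n) =
      ∑ j, (if f.Equivalent (F j) then autCount D else 0) by
    have := fun j => finite_carries hneg f (F j)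
    refine (Nat.card_eq_of_bijective _ (proper_bijective hD4 hn f hF)).symm.trans ?_
    rw [Nat.card_sigma]
    exact Finset.sum_congr rfl fun j _ => card_carries hneg f (F j)]
  rw [Finset.sum_comm, Finset.sum_congr rfl fun j _ => show
      ∑ f ∈ R, (if f.Equivalent (F j) then autCount D else 0) = autCount D by
    obtain ⟨g, ⟨hg, hge⟩, huniq⟩ := hR (F j)
    rw [Finset.sum_eq_single g (fun f hf hne => if_neg fun h => hne (huniq f ⟨hf, h⟩))
      (fun h => absurd hg h), if_pos hge],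
    Finset.sum_const, Finset.card_univ, ← Nat.card_eq_fintype_card, smul_eq_mul, mul_comm]
  rfl

omit hneg in
/-- All representations, by their common divisor. -/
theorem card_reps (f : Form D) {n : ℕ} (hn : n ≠ 0)
    (hfin : ∀ g ∈ n.divisors.filter (fun g => g ^ 2 ∣ n), Finite (Proper f (n / g ^ 2))) :
    Nat.card {v : ℤ × ℤ // f.eval v.1 v.2 = n} =
      ∑ g ∈ n.divisors.filter (fun g => g ^ 2 ∣ n), Nat.card (Proper f (n / g ^ 2)) := by
  have := fun g : {g // g ∈ n.divisors.filter (fun g => g ^ 2 ∣ n)} => hfin g.1 g.2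
  rw [← Finset.sum_coe_sort, ← Nat.card_sigma]
  symm
  have hscale : ∀ (g : {g // g ∈ n.divisors.filter (fun g => g ^ 2 ∣ n)})
      (v : Proper f (n / g.1 ^ 2)), f.eval (g.1 * v.1.1) (g.1 * v.1.2) = n := fun g v => by
    have e : ((g.1 ^ 2 : ℕ) : ℤ) * ((n / g.1 ^ 2 : ℕ) : ℤ) = n := by
      rw [← Nat.cast_mul, Nat.mul_div_cancel' (Finset.mem_filter.1 g.2).2]
    rw [← v.2.2] at e
    rw [← e]
    simp only [Form.eval, Nat.cast_pow]
    ring
  refine Nat.card_eq_of_bijective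
    (fun x => (⟨((x.1.1 : ℤ) * x.2.1.1, (x.1.1 : ℤ) * x.2.1.2), hscale x.1 x.2⟩ :
      {v : ℤ × ℤ // f.eval v.1 v.2 = n})) ⟨?_, ?_⟩
  · rintro ⟨⟨g, hg⟩, ⟨⟨x, y⟩, hxy, he⟩⟩ ⟨⟨g', hg'⟩, ⟨⟨x', y'⟩, hxy', he'⟩⟩ h
    have h' := congrArg Subtype.val h
    simp only [Prod.mk.injEq] at h'
    have hg0 : 0 < g := Nat.pos_of_mem_divisors (Finset.mem_filter.1 hg).1
    have hgcd : ∀ (a : ℕ) (u v : ℤ), IsCoprime u v → Int.gcd (a * u) (a * v) = a :=
      fun a u v huv => by
        rw [Int.gcd_mul_left, Int.natAbs_natCast, Int.isCoprime_iff_gcd_eq_one.1 huv, mul_one]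
    obtain rfl : g = g' := by
      rw [← hgcd g x y hxy, ← hgcd g' x' y' hxy', h'.1, h'.2]
    have hx : x = x' := mul_left_cancel₀ (Int.natCast_ne_zero.2 hg0.ne') h'.1
    have hy : y = y' := mul_left_cancel₀ (Int.natCast_ne_zero.2 hg0.ne') h'.2
    subst hx hy
    rfl
  · rintro ⟨⟨x, y⟩, h⟩
    obtain ⟨g, x', y', hg, hxy, rfl, rfl⟩ := Int.exists_gcd_one' (show 0 < Int.gcd x y from
      Int.gcd_pos_iff.2 (not_and_or.1 fun h0 => hn (by
        rw [h0.1, h0.2] at h
        exact_mod_cast (show (n : ℤ) = 0 by rw [← h]; simp [Form.eval]))))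
    obtain ⟨m, hm⟩ : ∃ m : ℤ, f.eval x' y' = m := ⟨_, rfl⟩
    have hmn : ((g ^ 2 : ℕ) : ℤ) * m = n := by
      rw [← hm, ← h, Nat.cast_pow]
      simp only [Form.eval]
      ring
    have hdvd : g ^ 2 ∣ n := Int.natCast_dvd_natCast.1 ⟨m, hmn.symm⟩
    have hval : f.eval x' y' = ((n / g ^ 2 : ℕ) : ℤ) := by
      refine mul_left_cancel₀ (Int.natCast_ne_zero.2 (pow_ne_zero 2 hg.ne')) ?_
      rw [← Nat.cast_mul, Nat.mul_div_cancel' hdvd, hm, hmn]
    refine ⟨⟨⟨g, Finset.mem_filter.2 ⟨Nat.mem_divisors.2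
      ⟨(dvd_pow_self g two_ne_zero).trans hdvd, hn⟩, hdvd⟩⟩,
      ⟨(x', y'), Int.isCoprime_iff_gcd_eq_one.2 hxy, hval⟩⟩, Subtype.ext (Prod.ext ?_ ?_)⟩ <;>
      exact mul_comm _ _

/-- **Dirichlet's theorem.** -/
theorem sum_card_reps (hD4 : D % 4 = 0 ∨ D % 4 = 1) {R : Finset (Form D)}
    (hR : ∀ f : Form D, ∃! g, g ∈ R ∧ g.Equivalent f) {n : ℕ} (hn : n ≠ 0)
    (hc : IsCoprime (n : ℤ) D) :
    (∑ f ∈ R, (Nat.card {v : ℤ × ℤ // f.eval v.1 v.2 = n} : ℤ)) =
      autCount D * ∑ d ∈ n.divisors, kronecker D d := by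
  have hG : ∀ g ∈ n.divisors.filter (fun g => g ^ 2 ∣ n),
      n / g ^ 2 ≠ 0 ∧ IsCoprime ((n / g ^ 2 : ℕ) : ℤ) D := fun g hg => by
    have e := Nat.mul_div_cancel' (Finset.mem_filter.1 hg).2
    refine ⟨fun h0 => hn (by rw [← e, h0, mul_zero]), ?_⟩
    rw [← e, Nat.cast_mul] at hc
    exact hc.of_mul_left_right
  rw [Finset.sum_congr rfl fun f _ => congrArg Nat.cast
    (card_reps f hn fun g hg => finite_proper hneg (hG g hg).1 (hG g hg).2 f)]
  simp only [Nat.cast_sum]
  rw [Finset.sum_comm, ← sum_rootCount_eq hD4 hn hc, Finset.mul_sum]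
  refine Finset.sum_congr rfl fun g hg => ?_
  exact_mod_cast sum_card_proper hneg hD4 hR (hG g hg).1 (hG g hg).2

end FA.FormCount
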