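import Mathlib.NumberTheory.ArithmeticFunction.Misc
import Mathlib.NumberTheory.LegendreSymbol.JacobiSymbol
import Mathlib.RingTheory.ZMod.UnitsCyclic
import Fermat.Agent.GenusPrimes.Values

/-!
# The roots of `j² + ε j - ⌊D / 4⌋` modulo `n`

`ε = D % 4` is `0` or `1`. For `n` prime to `D` the numbers of roots modulo `n / g²`, over the
squares `g²` dividing `n`, add up to the sum of the Kronecker symbols `(D / d)` over `d ∣ n`.
-/

set_option autoImplicit false

noncomputable section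

namespace FA.FormCount

variable {D : ℤ}

/-- The Kronecker symbol `(D / m)` of a discriminant at a number prime to it. -/
def kronecker (D : ℤ) (m : ℕ) : ℤ := if Odd D then jacobiSym m D.natAbs else jacobiSym D m

/-- The roots modulo `n`. -/
def Root (D : ℤ) (n : ℕ) : Type :=
  {j : ZMod n // j ^ 2 + ((D % 4 : ℤ) : ZMod n) * j = ((D / 4 : ℤ) : ZMod n)}

/-- Their number. -/
def rootCount (D : ℤ) (n : ℕ) : ℕ := Nat.card (Root D n)

theorem kronecker_one (D : ℤ) : kronecker D 1 = 1 := by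
  unfold kronecker
  split_ifs <;> simp [jacobiSym.one_left, jacobiSym.one_right]

theorem kronecker_mul (D : ℤ) {a b : ℕ} (ha : a ≠ 0) (hb : b ≠ 0) :
    kronecker D (a * b) = kronecker D a * kronecker D b := by
  unfold kronecker
  split_ifs
  · rw [Nat.cast_mul, jacobiSym.mul_left]
  · rw [jacobiSym.mul_right' D ha hb]

theorem kronecker_pow (D : ℤ) {a : ℕ} (ha : a ≠ 0) : ∀ k, kronecker D (a ^ k) = kronecker D a ^ k
  | 0 => by rw [pow_zero, pow_zero, kronecker_one]
  | k + 1 => by rw [pow_succ, kronecker_mul D (pow_ne_zero k ha) ha, kronecker_pow D ha k, pow_succ]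

theorem kronecker_of_odd (hD4 : D % 4 = 0 ∨ D % 4 = 1) {m : ℕ} (hm : Odd m) :
    kronecker D m = jacobiSym D m := by
  unfold kronecker
  split_ifs with h
  · exact (GenusPrimes.jacobi_natAbs (by rw [Int.odd_iff] at h; omega) hm).symm
  · rfl

theorem rootCount_one : rootCount D 1 = 1 :=
  Nat.card_eq_one_iff_unique.2 ⟨⟨fun _ _ => Subtype.ext (Subsingleton.elim _ _)⟩,
    ⟨⟨0, Subsingleton.elim _ _⟩⟩⟩

theorem rootCount_mul {m n : ℕ} (h : m.Coprime n) :
    rootCount D (m * n) = rootCount D m * rootCount D n := by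
  rw [rootCount, rootCount, rootCount, ← Nat.card_prod]
  refine Nat.card_congr (((ZMod.chineseRemainder h).toEquiv.subtypeEquiv
    (q := fun c : ZMod m × ZMod n =>
      c.1 ^ 2 + ((D % 4 : ℤ) : ZMod m) * c.1 = ((D / 4 : ℤ) : ZMod m) ∧
      c.2 ^ 2 + ((D % 4 : ℤ) : ZMod n) * c.2 = ((D / 4 : ℤ) : ZMod n)) fun j => ?_).trans
    (Equiv.subtypeProdEquivProd
      (p := fun a : ZMod m => a ^ 2 + ((D % 4 : ℤ) : ZMod m) * a = ((D / 4 : ℤ) : ZMod m))
      (q := fun a : ZMod n => a ^ 2 + ((D % 4 : ℤ) : ZMod n) * a = ((D / 4 : ℤ) : ZMod n))))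
  rw [← (ZMod.chineseRemainder h).injective.eq_iff, map_add, map_pow, map_mul, map_intCast,
    map_intCast, Prod.ext_iff]
  simp

/-- A root modulo `p ^ i` lifts. -/
theorem exists_root_lift {p : ℕ} (hp : p.Prime) (hpD : ¬(p : ℤ) ∣ D)
    (hD4 : D % 4 = 0 ∨ D % 4 = 1) (h : ∃ J : ℤ, (p : ℤ) ∣ J ^ 2 + D % 4 * J - D / 4) :
    ∀ i : ℕ, ∃ J : ℤ, (p : ℤ) ^ (i + 1) ∣ J ^ 2 + D % 4 * J - D / 4
  | 0 => by simpa using h
  | i + 1 => by
    obtain ⟨J, c, hc⟩ := exists_root_lift hp hpD hD4 h i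
    have hd := Int.mul_ediv_add_emod D 4
    have he : (D % 4) ^ 2 = D % 4 := by rcases hD4 with e | e <;> rw [e] <;> norm_num
    obtain ⟨u, v, huv⟩ : IsCoprime (2 * J + D % 4) (p : ℤ) := by
      refine ((Nat.prime_iff_prime_int.1 hp).coprime_iff_not_dvd.2 fun hdv => hpD ?_).symm
      rw [show D = (2 * J + D % 4) * (2 * J + D % 4) - (p : ℤ) ^ (i + 1) * (4 * c) by
        linear_combination -4 * hc - hd - he]
      exact (hdv.mul_left _).sub ((dvd_pow_self _ i.succ_ne_zero).mul_right _)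
    refine ⟨J - (p : ℤ) ^ (i + 1) * (c * u), c * v + (p : ℤ) ^ i * (c * u) ^ 2, ?_⟩
    linear_combination hc - ((p : ℤ) ^ (i + 1) * c) * huv

/-- The roots modulo a prime power. -/
theorem rootCount_prime_pow {p i : ℕ} (hp : p.Prime) (hpD : ¬(p : ℤ) ∣ D)
    (hD4 : D % 4 = 0 ∨ D % 4 = 1) :
    (rootCount D (p ^ (i + 1)) : ℤ) = 1 + kronecker D p := by
  classical
  have : Fact p.Prime := ⟨hp⟩
  have : NeZero (p ^ (i + 1)) := ⟨pow_ne_zero _ hp.ne_zero⟩
  have hd := Int.mul_ediv_add_emod D 4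
  have he : (D % 4) ^ 2 = D % 4 := by rcases hD4 with e | e <;> rw [e] <;> norm_num
  have hcop : IsCoprime D (p : ℤ) :=
    ((Nat.prime_iff_prime_int.1 hp).coprime_iff_not_dvd.2 hpD).symm
  have hroot : (∃ J : ℤ, (p : ℤ) ∣ J ^ 2 + D % 4 * J - D / 4) ↔ kronecker D p = 1 := by
    rcases hp.eq_two_or_odd' with rfl | hodd
    · have h1 : D % 4 = 1 := by
        rcases hD4 with h0 | h1
        · exact absurd (show ((2 : ℕ) : ℤ) ∣ D by push_cast; omega) hpD
        · exact h1
      rw [kronecker, if_pos (Int.odd_iff.2 (by omega)), Nat.cast_two,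
        jacobiSym.at_two (Nat.odd_iff.2 (by omega)), ZMod.χ₈_nat_eq_if_mod_eight, h1]
      have hev : ∀ J : ℤ, (2 : ℤ) ∣ J ^ 2 + 1 * J := fun J => by
        rw [show J ^ 2 + 1 * J = J * (J + 1) by ring]
        exact (Int.even_mul_succ_self J).two_dvd
      constructor
      · rintro ⟨J, hJ⟩
        have := hev J
        split_ifs <;> omega
      · intro h
        refine ⟨0, ?_⟩
        push_cast
        split_ifs at h <;> omega
    · rw [kronecker_of_odd hD4 hodd, ← jacobiSym.legendreSym.to_jacobiSym,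
        legendreSym.eq_one_iff p (by rwa [Ne, ZMod.intCast_zmod_eq_zero_iff_dvd])]
      constructor
      · rintro ⟨J, hJ⟩
        refine ⟨((2 * J + D % 4 : ℤ) : ZMod p), ?_⟩
        rw [← Int.cast_mul, ZMod.intCast_eq_intCast_iff_dvd_sub]
        rw [show (2 * J + D % 4) * (2 * J + D % 4) - D = 4 * (J ^ 2 + D % 4 * J - D / 4) by
          linear_combination hd + he]
        exact hJ.mul_left 4
      · rintro ⟨r, hr⟩
        have h2 : (2 : ZMod p) ≠ 0 := fun h => by
          have := (ZMod.natCast_eq_zero_iff 2 p).1 (by exact_mod_cast h)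
          have := (Nat.prime_dvd_prime_iff_eq hp Nat.prime_two).1 this
          subst this
          exact absurd hodd (by decide)
        obtain ⟨J, hJ⟩ := ZMod.intCast_surjective ((r - ((D % 4 : ℤ) : ZMod p)) / 2)
        refine ⟨J, (ZMod.intCast_zmod_eq_zero_iff_dvd _ _).1 ?_⟩
        have hz : ((4 * (D / 4) + D % 4 : ℤ) : ZMod p) = (D : ZMod p) := by rw [hd]
        have he' : (((D % 4) ^ 2 : ℤ) : ZMod p) = ((D % 4 : ℤ) : ZMod p) := by rw [he]
        push_cast at hz he' ⊢
        refine (mul_left_cancel₀ (mul_ne_zero h2 h2) ?_)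
        rw [hJ, mul_zero]
        field_simp
        linear_combination hr.symm - hz - he'
  have hinj : ∀ x y : Root D (p ^ (i + 1)),
      x.1 = y.1 ∨ x.1 + y.1 + ((D % 4 : ℤ) : ZMod (p ^ (i + 1))) = 0 := fun ⟨x, hx⟩ ⟨y, hy⟩ => by
    obtain ⟨x, rfl⟩ := ZMod.intCast_surjective x
    obtain ⟨y, rfl⟩ := ZMod.intCast_surjective y
    rw [← Int.cast_pow, ← Int.cast_mul, ← Int.cast_add, ZMod.intCast_eq_intCast_iff_dvd_sub,
      Nat.cast_pow] at hx hy
    have hprod : (p : ℤ) ^ (i + 1) ∣ (x - y) * (x + y + D % 4) := by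
      rw [show (x - y) * (x + y + D % 4) =
        D / 4 - (y ^ 2 + D % 4 * y) - (D / 4 - (x ^ 2 + D % 4 * x)) by ring]
      exact hy.sub hx
    by_cases h1 : (p : ℤ) ∣ x - y
    · left
      have h2 : ¬(p : ℤ) ∣ x + y + D % 4 := fun h2 => hpD (by
        rw [show D = (2 * x + D % 4) * (2 * x + D % 4) + 4 * (D / 4 - (x ^ 2 + D % 4 * x)) by
          linear_combination -hd - he]
        refine (((h1.add h2).trans (dvd_of_eq (by ring))).mul_right _).add
          (((dvd_pow_self _ i.succ_ne_zero).trans hx).mul_left 4))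
      show (x : ZMod (p ^ (i + 1))) = y
      rw [ZMod.intCast_eq_intCast_iff_dvd_sub, Nat.cast_pow, ← dvd_neg, neg_sub]
      exact ((Nat.prime_iff_prime_int.1 hp).coprime_iff_not_dvd.2 h2).pow_left.dvd_of_dvd_mul_right
        hprod
    · right
      show (x : ZMod (p ^ (i + 1))) + y + _ = 0
      rw [← Int.cast_add, ← Int.cast_add, ZMod.intCast_zmod_eq_zero_iff_dvd, Nat.cast_pow]
      exact ((Nat.prime_iff_prime_int.1 hp).coprime_iff_not_dvd.2 h1).pow_left.dvd_of_dvd_mul_left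
        hprod
  have hne : ∀ J : ℤ, ¬(p : ℤ) ∣ J ^ 2 + D % 4 * J - D / 4 ∨ ¬(p : ℤ) ∣ 2 * J + D % 4 :=
    fun J => not_and_or.1 fun ⟨h1, h2⟩ => hpD (by
      rw [show D = (2 * J + D % 4) * (2 * J + D % 4) - 4 * (J ^ 2 + D % 4 * J - D / 4) by
        linear_combination -hd - he]
      exact (h2.mul_left _).sub (h1.mul_left 4))
  by_cases h : kronecker D p = 1
  · obtain ⟨J, hJ⟩ := exists_root_lift hp hpD hD4 (hroot.2 h) i
    have hmem : ∀ z : ℤ, (p : ℤ) ^ (i + 1) ∣ z ^ 2 + D % 4 * z - D / 4 →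
        (z : ZMod (p ^ (i + 1))) ^ 2 + ((D % 4 : ℤ) : ZMod (p ^ (i + 1))) * z =
          ((D / 4 : ℤ) : ZMod (p ^ (i + 1))) := fun z hz => by
      rw [← Int.cast_pow, ← Int.cast_mul, ← Int.cast_add, ZMod.intCast_eq_intCast_iff_dvd_sub,
        Nat.cast_pow, ← dvd_neg, neg_sub]
      exact hz
    have hJ' : (p : ℤ) ^ (i + 1) ∣ (-J - D % 4) ^ 2 + D % 4 * (-J - D % 4) - D / 4 := by
      rwa [show (-J - D % 4) ^ 2 + D % 4 * (-J - D % 4) = J ^ 2 + D % 4 * J by ring]
    let a : Root D (p ^ (i + 1)) := ⟨_, hmem J hJ⟩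
    let b : Root D (p ^ (i + 1)) := ⟨_, hmem _ hJ'⟩
    have hab : a ≠ b := fun e => by
      have e' : (J : ZMod (p ^ (i + 1))) = ((-J - D % 4 : ℤ) : ZMod _) := congrArg Subtype.val e
      rw [ZMod.intCast_eq_intCast_iff_dvd_sub, Nat.cast_pow,
        show -J - D % 4 - J = -(2 * J + D % 4) by ring, dvd_neg] at e'
      exact (hne J).elim (fun h => h ((dvd_pow_self _ i.succ_ne_zero).trans hJ))
        fun h => h ((dvd_pow_self _ i.succ_ne_zero).trans e')
    have h2 : rootCount D (p ^ (i + 1)) = 2 := by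
      refine Nat.card_eq_two_iff.2 ⟨a, b, hab, Set.eq_univ_of_forall fun x => ?_⟩
      rcases hinj x a with e | e
      · exact Or.inl (Subtype.ext e)
      · refine Or.inr (Subtype.ext ?_)
        show x.1 = ((-J - D % 4 : ℤ) : ZMod (p ^ (i + 1)))
        push_cast
        linear_combination e
    rw [h2, h]
    norm_num
  · have hk : kronecker D p = -1 := by
      have hj : kronecker D p = 1 ∨ kronecker D p = -1 := by
        have hg : Int.gcd D p = 1 := Int.isCoprime_iff_gcd_eq_one.1 hcop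
        unfold kronecker
        split_ifs
        · exact jacobiSym.eq_one_or_neg_one (by
            simpa [Int.gcd_eq_natAbs, Nat.gcd_comm, Int.natAbs_abs] using hg)
        · exact jacobiSym.eq_one_or_neg_one hg
      exact hj.resolve_left h
    have h0 : rootCount D (p ^ (i + 1)) = 0 := by
      refine Nat.card_eq_zero.2 (Or.inl ⟨fun ⟨x, hx⟩ => h (hroot.1 ?_)⟩)
      obtain ⟨J, rfl⟩ := ZMod.intCast_surjective x
      rw [← Int.cast_pow, ← Int.cast_mul, ← Int.cast_add, ZMod.intCast_eq_intCast_iff_dvd_sub,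
        Nat.cast_pow, ← dvd_neg, neg_sub] at hx
      exact ⟨J, (dvd_pow_self _ i.succ_ne_zero).trans hx⟩
    rw [h0, hk]
    norm_num

/-- The indicator of the squares among the numbers prime to `D`. -/
def squares (D : ℤ) : ArithmeticFunction ℤ :=
  ⟨fun m => if m ≠ 0 ∧ IsSquare m ∧ IsCoprime (m : ℤ) D then 1 else 0, if_neg fun h => h.1 rfl⟩

/-- The numbers of roots at the numbers prime to `D`. -/
def roots (D : ℤ) : ArithmeticFunction ℤ :=
  ⟨fun m => if m ≠ 0 ∧ IsCoprime (m : ℤ) D then (rootCount D m : ℤ) else 0,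
    if_neg fun h => h.1 rfl⟩

/-- The indicator of the numbers prime to `D`. -/
def coprimes (D : ℤ) : ArithmeticFunction ℤ :=
  ⟨fun m => if m ≠ 0 ∧ IsCoprime (m : ℤ) D then 1 else 0, if_neg fun h => h.1 rfl⟩

/-- The symbol at the numbers prime to `D`. -/
def symbol (D : ℤ) : ArithmeticFunction ℤ :=
  ⟨fun m => if m ≠ 0 ∧ IsCoprime (m : ℤ) D then kronecker D m else 0, if_neg fun h => h.1 rfl⟩

theorem isCoprime_cast_mul {m n : ℕ} :
    IsCoprime ((m * n : ℕ) : ℤ) D ↔ IsCoprime (m : ℤ) D ∧ IsCoprime (n : ℤ) D := by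
  rw [Nat.cast_mul]
  exact IsCoprime.mul_left_iff

/-- Multiplicativity of a function cut off to the numbers prime to `D`. -/
theorem isMultiplicative_of_cut {f : ArithmeticFunction ℤ} {g : ℕ → ℤ}
    (hf : ∀ m, f m = if m ≠ 0 ∧ IsCoprime (m : ℤ) D then g m else 0) (h1 : g 1 = 1)
    (hg : ∀ m n, m ≠ 0 → n ≠ 0 → m.Coprime n → g (m * n) = g m * g n) : f.IsMultiplicative := by
  refine ⟨by rw [hf, if_pos ⟨one_ne_zero, by rw [Nat.cast_one]; exact isCoprime_one_left⟩, h1],
    fun {m n} hmn => ?_⟩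
  rw [hf, hf, hf]
  by_cases hm : m ≠ 0 ∧ IsCoprime (m : ℤ) D
  · by_cases hn : n ≠ 0 ∧ IsCoprime (n : ℤ) D
    · rw [if_pos hm, if_pos hn, if_pos ⟨mul_ne_zero hm.1 hn.1, isCoprime_cast_mul.2 ⟨hm.2, hn.2⟩⟩,
        hg m n hm.1 hn.1 hmn]
    · rw [if_neg hn, mul_zero, if_neg fun h => hn
        ⟨(mul_ne_zero_iff.1 h.1).2, (isCoprime_cast_mul.1 h.2).2⟩]
  · rw [if_neg hm, zero_mul, if_neg fun h => hm
      ⟨(mul_ne_zero_iff.1 h.1).1, (isCoprime_cast_mul.1 h.2).1⟩]

theorem squares_isMultiplicative : (squares D).IsMultiplicative := by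
  classical
  refine isMultiplicative_of_cut (D := D) (g := fun m => if IsSquare m then 1 else 0) (fun m => ?_)
    (if_pos ⟨1, rfl⟩) fun m n hm hn hmn => ?_
  · show (if m ≠ 0 ∧ IsSquare m ∧ IsCoprime (m : ℤ) D then (1 : ℤ) else 0) = _
    split_ifs <;> tauto
  · have : IsSquare (m * n) ↔ IsSquare m ∧ IsSquare n := by
      refine ⟨fun ⟨r, hr⟩ => ?_, fun h => h.1.mul h.2⟩
      obtain ⟨s, hs⟩ := exists_eq_pow_of_mul_eq_pow (Nat.isUnit_iff.2 hmn) (hr.trans (sq r).symm)
      obtain ⟨t, ht⟩ := exists_eq_pow_of_mul_eq_pow (Nat.isUnit_iff.2 hmn.symm)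
        ((mul_comm n m).trans (hr.trans (sq r).symm))
      exact ⟨⟨s, hs.trans (sq s)⟩, ⟨t, ht.trans (sq t)⟩⟩
    simp only [this]
    split_ifs <;> simp_all

theorem sum_sq_rootCount_prime_pow {p : ℕ} (hp : p.Prime) (hpD : ¬(p : ℤ) ∣ D)
    (hD4 : D % 4 = 0 ∨ D % 4 = 1) : ∀ k : ℕ,
    ∑ j ∈ Finset.range (k + 1), (if Even j then (rootCount D (p ^ (k - j)) : ℤ) else 0) =
      ∑ j ∈ Finset.range (k + 1), kronecker D p ^ j := by
  refine Nat.twoStepInduction ?_ ?_ fun k ih _ => ?_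
  · rw [Finset.sum_range_one, Finset.sum_range_one, if_pos Even.zero]
    simp [rootCount_one]
  · rw [Finset.sum_range_succ, Finset.sum_range_one, if_pos Even.zero, if_neg (by simp),
      Finset.sum_range_succ, Finset.sum_range_one, Nat.sub_zero,
      rootCount_prime_pow (i := 0) hp hpD hD4]
    simp
  · have he : kronecker D p ^ 2 = 1 := by
      have hg : IsCoprime D (p : ℤ) :=
        ((Nat.prime_iff_prime_int.1 hp).coprime_iff_not_dvd.2 hpD).symm
      unfold kronecker
      split_ifs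
      · refine jacobiSym.sq_one ?_
        rw [Int.gcd_eq_natAbs, Int.natAbs_natCast, Int.natAbs_natCast, Nat.gcd_comm]
        simpa [Int.gcd_eq_natAbs] using Int.isCoprime_iff_gcd_eq_one.1 hg
      · exact jacobiSym.sq_one (Int.isCoprime_iff_gcd_eq_one.1 hg)
    have hev : ∀ j, Even (j + 1 + 1) ↔ Even j := fun j => by simp [Nat.even_add_one]
    have hev1 : ¬Even (0 + 1) := by simp
    rw [Finset.sum_range_succ', Finset.sum_range_succ', if_pos Even.zero, if_neg hev1,
      Finset.sum_congr rfl fun j _ => if_congr (hev j) rfl rfl, Nat.sub_zero,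
      rootCount_prime_pow hp hpD hD4, Finset.sum_range_succ (n := k + 1 + 1),
      Finset.sum_range_succ (n := k + 1)]
    simp only [Nat.add_sub_add_right, ih]
    rw [show kronecker D p ^ (k + 1 + 1) = kronecker D p ^ k * kronecker D p ^ 2 by ring,
      pow_succ, he]
    rcases sq_eq_one_iff.1 he with e | e <;> rw [e] <;> ring

/-- **The roots over the square divisors.** -/
theorem sum_rootCount_eq (hD4 : D % 4 = 0 ∨ D % 4 = 1) {n : ℕ} (hn : n ≠ 0)
    (hc : IsCoprime (n : ℤ) D) :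
    ∑ g ∈ n.divisors.filter (fun g => g ^ 2 ∣ n), (rootCount D (n / g ^ 2) : ℤ) =
      ∑ d ∈ n.divisors, kronecker D d := by
  classical
  have key : squares D * roots D = symbol D * coprimes D := by
    rw [ArithmeticFunction.IsMultiplicative.eq_iff_eq_on_prime_powers _
      (squares_isMultiplicative.mul (isMultiplicative_of_cut (fun _ => rfl)
        (by simp [rootCount_one]) fun a b _ _ h => by rw [rootCount_mul h]; push_cast; rfl)) _
      ((isMultiplicative_of_cut (fun _ => rfl) (kronecker_one D) fun a b ha hb _ =>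
        kronecker_mul D ha hb).mul (isMultiplicative_of_cut (g := fun _ => 1) (fun _ => rfl)
          rfl fun _ _ _ _ _ => (one_mul 1).symm))]
    intro p k hp
    rw [ArithmeticFunction.mul_apply, ArithmeticFunction.mul_apply, Nat.sum_divisorsAntidiagonal
      (fun a b => squares D a * roots D b), Nat.sum_divisorsAntidiagonal
      (fun a b => symbol D a * coprimes D b), Nat.sum_divisors_prime_pow hp,
      Nat.sum_divisors_prime_pow hp]
    by_cases hpD : (p : ℤ) ∣ D
    · refine Finset.sum_congr rfl fun j hj => ?_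
      have hnc : ∀ i, i ≠ 0 → ¬IsCoprime ((p : ℤ) ^ i) D := fun i hi h =>
        (Nat.prime_iff_prime_int.1 hp).not_isUnit (h.isUnit_of_dvd' (dvd_pow_self _ hi) hpD)
      rcases Nat.eq_zero_or_pos j with rfl | hj0
      · rcases Nat.eq_zero_or_pos k with rfl | hk
        · simp [squares, roots, symbol, coprimes, rootCount_one, kronecker_one, isCoprime_one_left]
        · simp [squares, roots, symbol, coprimes, isCoprime_one_left, hnc k hk.ne']
      · simp [squares, symbol, hnc j hj0.ne']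
    · have hco : ∀ i, IsCoprime ((p ^ i : ℕ) : ℤ) D := fun i => by
        rw [Nat.cast_pow]
        exact ((Nat.prime_iff_prime_int.1 hp).coprime_iff_not_dvd.2 hpD).pow_left
      have hsq : ∀ j, IsSquare (p ^ j) ↔ Even j := fun j => by
        refine ⟨fun ⟨r, hr⟩ => ?_, fun h => h.isSquare_pow p⟩
        obtain ⟨i, -, rfl⟩ := (Nat.dvd_prime_pow hp).1 (Dvd.intro r hr.symm)
        rw [← pow_add] at hr
        exact ⟨i, Nat.pow_right_injective hp.two_le hr⟩
      refine ((Finset.sum_congr rfl fun j hj => ?_).trans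
        (sum_sq_rootCount_prime_pow hp hpD hD4 k)).trans (Finset.sum_congr rfl fun j hj => ?_)
      · simp only [squares, roots, ArithmeticFunction.coe_mk, ne_eq, pow_eq_zero_iff',
          hp.ne_zero, false_and, not_false_eq_true, hco, hsq, true_and, and_true,
          Nat.pow_div (Nat.lt_succ_iff.1 (Finset.mem_range.1 hj)) hp.pos, if_true, ite_mul,
          one_mul, zero_mul]
      · simp only [symbol, coprimes, ArithmeticFunction.coe_mk, ne_eq, pow_eq_zero_iff',
          hp.ne_zero, false_and, not_false_eq_true, hco, true_and, if_true, mul_one,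
          Nat.pow_div (Nat.lt_succ_iff.1 (Finset.mem_range.1 hj)) hp.pos,
          kronecker_pow D hp.ne_zero]
  have := DFunLike.congr_fun key n
  rw [ArithmeticFunction.mul_apply, ArithmeticFunction.mul_apply, Nat.sum_divisorsAntidiagonal
      (fun a b => squares D a * roots D b), Nat.sum_divisorsAntidiagonal
      (fun a b => symbol D a * coprimes D b)] at this
  have hco : ∀ d ∈ n.divisors, (d ≠ 0 ∧ IsCoprime (d : ℤ) D) ∧
      (n / d ≠ 0 ∧ IsCoprime ((n / d : ℕ) : ℤ) D) := fun d hd => by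
    obtain ⟨hdn, -⟩ := Nat.mem_divisors.1 hd
    have e := Nat.mul_div_cancel' hdn
    rw [← e] at hc
    exact ⟨⟨ne_zero_of_dvd_ne_zero hn hdn, (isCoprime_cast_mul.1 hc).1⟩,
      ⟨ne_zero_of_dvd_ne_zero hn (Dvd.intro_left _ e), (isCoprime_cast_mul.1 hc).2⟩⟩
  rw [Finset.sum_congr rfl fun d hd => show symbol D d * coprimes D (n / d) = kronecker D d by
      simp only [symbol, coprimes, ArithmeticFunction.coe_mk, if_pos (hco d hd).1,
        if_pos (hco d hd).2, mul_one],
    Finset.sum_congr rfl fun d hd => show squares D d * roots D (n / d) =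
        if IsSquare d then (rootCount D (n / d) : ℤ) else 0 by
      simp only [squares, roots, ArithmeticFunction.coe_mk, if_pos (hco d hd).2]
      by_cases h : IsSquare d
      · rw [if_pos h, if_pos ⟨(hco d hd).1.1, h, (hco d hd).1.2⟩, one_mul]
      · rw [if_neg h, if_neg fun e => h e.2.1, zero_mul],
    ← Finset.sum_filter] at this
  rw [← this]
  refine Finset.sum_nbij (fun g => g ^ 2) (fun g hg => ?_) (fun g _ h _ e => ?_) (fun d hd => ?_)
    fun g _ => rfl
  · exact Finset.mem_filter.2 ⟨Nat.mem_divisors.2 ⟨(Finset.mem_filter.1 hg).2, hn⟩, ⟨g, sq g⟩⟩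
  · exact Nat.pow_left_injective two_ne_zero e
  · obtain ⟨hd, r, rfl⟩ := Finset.mem_filter.1 hd
    have hr := (Nat.mem_divisors.1 hd).1
    exact ⟨r, Finset.mem_filter.2 ⟨Nat.mem_divisors.2 ⟨(dvd_mul_right r r).trans hr, hn⟩,
      by rwa [sq]⟩, sq r⟩

end FA.FormCount
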